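import Fermat.Agent.S25.H11.ACTop

/-!
# Row S25, block ALGCHARTS: STAGE 4 is formal (helper11)

`Leaf.Stage4` follows from `Leaf.PointBC` and `Leaf.PointUnique`: the locus ideal is generated by
the value `φ₀ f` of `f` at the Hilbert coordinates `φ₀` of `G`.  (The two point leaves are used
for the chart index with `f` replaced by `1`.)
-/

set_option autoImplicit false

universe u

open scoped TensorProduct

namespace Fermat.Agent.S25.H11

open Fermat.Agent.S25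

variable {k : Type u} [Field k] {B₀ B₁ B₀₁ : Type u} [CommRing B₀] [CommRing B₁] [CommRing B₀₁]
  [Algebra k B₀] [Algebra k B₁] [Algebra k B₀₁] [Algebra B₀ B₀₁] [Algebra B₁ B₀₁]
  [IsScalarTower k B₀ B₀₁] [IsScalarTower k B₁ B₀₁]

/-- The chart index with `f` replaced by `1`. -/
noncomputable def ChartIndex.one (i : ChartIndex k B₀) : ChartIndex k B₀ :=
  { n := i.n, m := i.m, g := i.g, q := i.q, β := i.β, f := 1 }

theorem ChartIndex.one_numeric {y : B₁} {i : ChartIndex k B₀} (h : i.Numeric B₀₁ y) :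
    i.one.Numeric B₀₁ y := h

/-- The point conditions without the condition on `f`. -/
theorem pointCond_one_iff {x : B₀} {y : B₁} {i : ChartIndex k B₀} {A : Type u} [CommRing A]
    [Algebra k A] {G : CurveGD k B₀ B₁ B₀₁ A} {φ₀ : H491.Rβ k i.β →ₐ[k] A} :
    PointCond x y i.one G φ₀ ↔ P1 x i.n i.q G ∧ ∃ s, IsGen x y i.n i.q G s ∧
      Submodule.span (A ⊗[k] B₀) {s.1} =
        ((H491.univIdeal (k := k) i.β).map (H491.bc B₀ φ₀) * ptIdeal i.q A) •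
          (⊤ : Submodule (A ⊗[k] B₀) G.N₀) :=
  ⟨fun h => ⟨h.p1, h.sect⟩, fun h => ⟨h.1, h.2, by
    change IsUnit (φ₀ 1)
    rw [map_one]
    exact isUnit_one⟩⟩

theorem pointCond_iff_one {x : B₀} {y : B₁} {i : ChartIndex k B₀} {A : Type u} [CommRing A]
    [Algebra k A] {G : CurveGD k B₀ B₁ B₀₁ A} {φ₀ : H491.Rβ k i.β →ₐ[k] A} :
    PointCond x y i G φ₀ ↔ PointCond x y i.one G φ₀ ∧ IsUnit (φ₀ i.f) :=
  ⟨fun h => ⟨pointCond_one_iff.2 ⟨h.p1, h.sect⟩, h.unit⟩,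
    fun h => ⟨h.1.p1, h.1.sect, h.2⟩⟩

/-- **STAGE 4 from the point leaves.** -/
theorem stage4_of_point (hBC : Leaf.PointBC k B₀ B₁ B₀₁) (hU : Leaf.PointUnique k B₀ B₁ B₀₁) :
    Leaf.Stage4 k B₀ B₁ B₀₁ := by
  intro x y e hC i hnum A _ _ G hrig hdeg h3
  obtain ⟨h1, s, hs, I', hI', hspan⟩ := h3
  obtain ⟨φ₀, hφ₀, -⟩ := H491.existsUnique_algHom_of_isChart hI'
  have hφ₀' : (H491.univIdeal (k := k) i.β).map (H491.bc B₀ φ₀) = I' := hφ₀
  have hpc : PointCond x y i.one G φ₀ :=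
    pointCond_one_iff.2 ⟨h1, s, hs, by rw [hφ₀']; exact hspan⟩
  refine ⟨Ideal.span {φ₀ i.f}, fun A' _ _ ψ G' hG' => ?_⟩
  have h' : PointCond x y i.one G' (ψ.comp φ₀) :=
    hBC x y e hC i.one (ChartIndex.one_numeric hnum) A A' G G' ψ hG' hrig hdeg φ₀ hpc
  have hmap : (Ideal.span {φ₀ i.f}).map ψ.toRingHom = ⊤ ↔ IsUnit (ψ (φ₀ i.f)) := by
    rw [Ideal.map_span, Set.image_singleton, Ideal.span_singleton_eq_top]
    rfl
  rw [hmap]
  constructor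
  · rintro ⟨φ₀', hp⟩
    have hp' := pointCond_iff_one.1 hp
    have heq : ψ.comp φ₀ = φ₀' := hU x y e hC i.one A' G' _ _ h' hp'.1
    have := hp'.2
    rw [← heq] at this
    exact this
  · intro hu
    exact ⟨ψ.comp φ₀, pointCond_iff_one.2 ⟨h', hu⟩⟩

/-- **ALGCHARTS from eight leaves** (`Stage4` is formal). -/
theorem algCharts_of_leaves₈ [IsAlgClosed k]
    (h0 : Leaf.Stage0 k B₀ B₁ B₀₁) (h1 : Leaf.Stage1 k B₀ B₁ B₀₁)
    (h2 : Leaf.Stage2 k B₀ B₁ B₀₁) (h3 : Leaf.Stage3 k B₀ B₁ B₀₁)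
    (hBC : Leaf.PointBC k B₀ B₁ B₀₁) (hU : Leaf.PointUnique k B₀ B₁ B₀₁)
    (hI : Leaf.PointIso k B₀ B₁ B₀₁) (hCov : Leaf.Cover k B₀ B₁ B₀₁) :
    Stmt.AlgCharts k B₀ B₁ B₀₁ :=
  algCharts_of_leaves k B₀ B₁ B₀₁ h0 h1 h2 h3 (stage4_of_point hBC hU) hBC hU hI hCov

end Fermat.Agent.S25.H11
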