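import Fermat.Agent.S25.DefsAlg
import Fermat.Agent.S25.H265.GDCCurve
import Fermat.Agent.S25.H265.GDCDeg
import Fermat.Agent.S25.H265.GDCRig
import Fermat.Agent.S25.H265.GDCBaseChange

/-!
# Row S25, block ALGCHARTS: formal chaining of open conditions (helper11)

A predicate `P` on gluing data has a *locus* at `(A, G)` if there is an ideal `J` of `A` with
`P A' G' ↔ J·A' = A'` for every base change `G'` of `G`.  If a chain of predicates
`P₀ ⇐ P₁ ⇐ …` has loci step by step (the locus of `Pⱼ₊₁` being available only where `Pⱼ`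
holds), then every `Pⱼ` satisfies the fibrewise criterion (`Fib`) and is open (`Spread`) in the
sense of helper926's `ChartAtlas`.
-/

set_option autoImplicit false

universe u

open scoped TensorProduct

namespace Fermat.Agent.S25.H11

open Fermat.Agent.S25

section

variable {k : Type u} [Field k] {B₀ B₁ B₀₁ : Type u} [CommRing B₀] [CommRing B₁] [CommRing B₀₁]
  [Algebra k B₀] [Algebra k B₁] [Algebra k B₀₁] [Algebra B₀ B₀₁] [Algebra B₁ B₀₁]
  [IsScalarTower k B₀ B₀₁] [IsScalarTower k B₁ B₀₁]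

variable (k B₀ B₁ B₀₁) in
/-- A predicate on gluing data over arbitrary `k`-algebras. -/
abbrev GDPred : Type (u + 1) :=
  ∀ (A : Type u) [CommRing A] [Algebra k A], CurveGD k B₀ B₁ B₀₁ A → Prop

/-- `P` has a locus at `(A, G)`. -/
def HasLocusAt (P : GDPred k B₀ B₁ B₀₁) (A : Type u) [CommRing A] [Algebra k A]
    (G : CurveGD k B₀ B₁ B₀₁ A) : Prop :=
  ∃ J : Ideal A, ∀ (A' : Type u) [CommRing A'] [Algebra k A'] (ψ : A →ₐ[k] A')
    (G' : CurveGD k B₀ B₁ B₀₁ A'), CurveGD.IsBC ψ G G' → (P A' G' ↔ J.map ψ.toRingHom = ⊤)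

/-- The fibrewise criterion for `P` (on rigidifiable data of degree zero). -/
def FibCrit (e : B₁ →ₐ[k] k) (P : GDPred k B₀ B₁ B₀₁) : Prop :=
  ∀ (A : Type u) [CommRing A] [Algebra k A] (G : CurveGD k B₀ B₁ B₀₁ A),
    G.Rigidifiable e → G.Deg0 →
    (∀ (K : Type u) [Field K] [Algebra k K] (ψ : A →ₐ[k] K) (GK : CurveGD k B₀ B₁ B₀₁ K),
      CurveGD.IsBC ψ G GK → P K GK) → P A G

/-- Openness of `P` on field-valued points (on rigidifiable data of degree zero). -/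
def SpreadCrit (e : B₁ →ₐ[k] k) (P : GDPred k B₀ B₁ B₀₁) : Prop :=
  ∀ (A : Type u) [CommRing A] [Algebra k A] (G : CurveGD k B₀ B₁ B₀₁ A),
    G.Rigidifiable e → G.Deg0 →
    ∀ (K : Type u) [Field K] [Algebra k K] (ψ : A →ₐ[k] K) (GK : CurveGD k B₀ B₁ B₀₁ K),
      CurveGD.IsBC ψ G GK → P K GK →
      ∃ a : A, ψ a ≠ 0 ∧
        ∀ (L : Type u) [Field L] [Algebra k L] (θ : A →ₐ[k] L) (Gθ : CurveGD k B₀ B₁ B₀₁ L),
          CurveGD.IsBC θ G Gθ → θ a ≠ 0 → P L Gθ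

/-- A locus gives the predicate as soon as it holds on all field-valued fibres. -/
theorem of_fibres_of_hasLocusAt {P : GDPred k B₀ B₁ B₀₁} {A : Type u} [CommRing A] [Algebra k A]
    {G : CurveGD k B₀ B₁ B₀₁ A} (hL : HasLocusAt P A G)
    (hfib : ∀ (K : Type u) [Field K] [Algebra k K] (ψ : A →ₐ[k] K)
      (GK : CurveGD k B₀ B₁ B₀₁ K), CurveGD.IsBC ψ G GK → P K GK) : P A G := by
  obtain ⟨J, hJ⟩ := hL
  have hid := hJ A (AlgHom.id k A) G (H265.curveGD_isBC_id G)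
  rw [hid]
  have hJtop : J = ⊤ := by
    by_contra hne
    obtain ⟨m, hm, hle⟩ := Ideal.exists_le_maximal _ hne
    let _ : Field (A ⧸ m) := Ideal.Quotient.field m
    let χ : A →ₐ[k] (A ⧸ m) := Ideal.Quotient.mkₐ k m
    obtain ⟨GK, hGK⟩ := H265.curveGD_exists_isBC χ G
    have h1 := (hJ (A ⧸ m) χ GK hGK).1 (hfib (A ⧸ m) χ GK hGK)
    have h2 : J.map χ.toRingHom ≤ ⊥ := by
      rw [Ideal.map_le_iff_le_comap]
      intro a ha
      rw [Ideal.mem_comap, Ideal.mem_bot]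
      exact Ideal.Quotient.eq_zero_iff_mem.2 (hle ha)
    rw [h1] at h2
    exact top_ne_bot (le_bot_iff.1 h2)
  rw [hJtop]
  have : (AlgHom.id k A).toRingHom = RingHom.id A := rfl
  rw [this, Ideal.map_id]

/-- One step of the chain for the fibrewise criterion. -/
theorem fibCrit_step {e : B₁ →ₐ[k] k} {Q P : GDPred k B₀ B₁ B₀₁}
    (hPQ : ∀ (A : Type u) [CommRing A] [Algebra k A] (G : CurveGD k B₀ B₁ B₀₁ A),
      P A G → Q A G)
    (hQ : FibCrit e Q)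
    (hL : ∀ (A : Type u) [CommRing A] [Algebra k A] (G : CurveGD k B₀ B₁ B₀₁ A),
      G.Rigidifiable e → G.Deg0 → Q A G → HasLocusAt P A G) :
    FibCrit e P := by
  intro A _ _ G hrig hdeg hfib
  have hQG : Q A G := hQ A G hrig hdeg (fun K _ _ ψ GK hGK => hPQ K GK (hfib K ψ GK hGK))
  exact of_fibres_of_hasLocusAt (hL A G hrig hdeg hQG) hfib

/-- A locus gives openness on field-valued points. -/
theorem spread_of_hasLocusAt {P : GDPred k B₀ B₁ B₀₁} {A : Type u} [CommRing A] [Algebra k A]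
    {G : CurveGD k B₀ B₁ B₀₁ A} (hL : HasLocusAt P A G)
    (K : Type u) [Field K] [Algebra k K] (ψ : A →ₐ[k] K) (GK : CurveGD k B₀ B₁ B₀₁ K)
    (hGK : CurveGD.IsBC ψ G GK) (hP : P K GK) :
    ∃ a : A, ψ a ≠ 0 ∧
      ∀ (L : Type u) [Field L] [Algebra k L] (θ : A →ₐ[k] L) (Gθ : CurveGD k B₀ B₁ B₀₁ L),
        CurveGD.IsBC θ G Gθ → θ a ≠ 0 → P L Gθ := by
  obtain ⟨J, hJ⟩ := hL
  have h1 := (hJ K ψ GK hGK).1 hP
  have hex : ∃ a ∈ J, ψ a ≠ 0 := by
    by_contra hno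
    push Not at hno
    have h2 : J.map ψ.toRingHom ≤ ⊥ := by
      rw [Ideal.map_le_iff_le_comap]
      intro a ha
      rw [Ideal.mem_comap, Ideal.mem_bot]
      exact hno a ha
    rw [h1] at h2
    exact top_ne_bot (le_bot_iff.1 h2)
  obtain ⟨a, haJ, ha⟩ := hex
  refine ⟨a, ha, fun L _ _ θ Gθ hGθ hθ => (hJ L θ Gθ hGθ).2 ?_⟩
  rw [Ideal.eq_top_iff_one]
  have hmem : θ a ∈ J.map θ.toRingHom := Ideal.mem_map_of_mem θ.toRingHom haJ
  have hu : IsUnit (θ a) := isUnit_iff_ne_zero.2 hθ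
  exact (Ideal.eq_top_of_isUnit_mem _ hmem hu) ▸ Submodule.mem_top

/-- Extension of a field-valued point to the localization away from an element which does not
vanish at the point. -/
theorem exists_lift_away {A : Type u} [CommRing A] [Algebra k A] (a : A) {L : Type u} [Field L]
    [Algebra k L] (θ : A →ₐ[k] L) (hθ : θ a ≠ 0) :
    ∃ θ₁ : Localization.Away a →ₐ[k] L,
      θ₁.comp (IsScalarTower.toAlgHom k A (Localization.Away a)) = θ := by
  have hu : IsUnit (θ a) := isUnit_iff_ne_zero.2 hθ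
  refine ⟨IsLocalization.Away.liftAlgHom (S := Localization.Away a) a (f := θ) hu, ?_⟩
  ext b
  simp [IsLocalization.Away.lift_eq]

/-- One step of the chain for openness. -/
theorem spreadCrit_step {e : B₁ →ₐ[k] k} {Q P : GDPred k B₀ B₁ B₀₁}
    (hPQ : ∀ (A : Type u) [CommRing A] [Algebra k A] (G : CurveGD k B₀ B₁ B₀₁ A),
      P A G → Q A G)
    (hQfib : FibCrit e Q) (hQspr : SpreadCrit e Q)
    (hL : ∀ (A : Type u) [CommRing A] [Algebra k A] (G : CurveGD k B₀ B₁ B₀₁ A),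
      G.Rigidifiable e → G.Deg0 → Q A G → HasLocusAt P A G) :
    SpreadCrit e P := by
  intro A _ _ G hrig hdeg K _ _ ψ GK hGK hP
  obtain ⟨a₁, ha₁, hgood₁⟩ := hQspr A G hrig hdeg K ψ GK hGK (hPQ K GK hP)
  let can : A →ₐ[k] Localization.Away a₁ := IsScalarTower.toAlgHom k A (Localization.Away a₁)
  have hcan : ∀ a, can a = algebraMap A (Localization.Away a₁) a := fun _ => rfl
  obtain ⟨G₁, hG₁⟩ := H265.curveGD_exists_isBC can G
  have hrig₁ := H265.rigidifiable_of_isBC hG₁ hrig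
  have hdeg₁ := H265.deg0_of_isBC hG₁ hdeg
  have hunit : IsUnit (can a₁) := IsLocalization.Away.algebraMap_isUnit a₁
  have hQ₁ : Q (Localization.Away a₁) G₁ := by
    refine hQfib _ G₁ hrig₁ hdeg₁ (fun L _ _ θ₁ Gθ hGθ => ?_)
    refine hgood₁ L (θ₁.comp can) Gθ (H265.curveGD_isBC_comp hG₁ hGθ) ?_
    rw [AlgHom.comp_apply]
    exact (hunit.map θ₁).ne_zero
  have hL₁ := hL _ G₁ hrig₁ hdeg₁ hQ₁
  obtain ⟨ψ₁, hψ₁⟩ := exists_lift_away a₁ ψ ha₁
  have hGK₁ : CurveGD.IsBC ψ₁ G₁ GK := H265.curveGD_isBC_of_comp_eq hψ₁.symm hG₁ hGK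
  obtain ⟨b, hb, hgoodb⟩ := spread_of_hasLocusAt hL₁ K ψ₁ GK hGK₁ hP
  obtain ⟨⟨a₂, s⟩, hb₂⟩ := IsLocalization.surj (Submonoid.powers a₁) b
  obtain ⟨N, hN⟩ := s.2
  have hN' : a₁ ^ N = (s : A) := hN
  have hb₂' : b * can a₁ ^ N = can a₂ := by
    rw [hcan, hcan, ← map_pow, hN']
    exact hb₂
  have key : ∀ (L : Type u) [Field L] [Algebra k L] (θ₁ : Localization.Away a₁ →ₐ[k] L),
      θ₁ b * (θ₁.comp can) a₁ ^ N = (θ₁.comp can) a₂ := by
    intro L _ _ θ₁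
    rw [AlgHom.comp_apply, AlgHom.comp_apply, ← map_pow, ← map_mul, hb₂']
  refine ⟨a₁ * a₂, ?_, ?_⟩
  · have h := key K ψ₁
    rw [hψ₁] at h
    rw [map_mul, ← h]
    exact mul_ne_zero ha₁ (mul_ne_zero hb (pow_ne_zero N ha₁))
  · intro L _ _ θ Gθ hGθ hθ
    rw [map_mul] at hθ
    have hθ₁ : θ a₁ ≠ 0 := left_ne_zero_of_mul hθ
    have hθ₂ : θ a₂ ≠ 0 := right_ne_zero_of_mul hθ
    obtain ⟨θ₁, hθ₁'⟩ := exists_lift_away a₁ θ hθ₁
    have hGθ₁ : CurveGD.IsBC θ₁ G₁ Gθ := H265.curveGD_isBC_of_comp_eq hθ₁'.symm hG₁ hGθ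
    refine hgoodb L θ₁ Gθ hGθ₁ ?_
    have h := key L θ₁
    rw [hθ₁'] at h
    intro h0
    rw [h0, zero_mul] at h
    exact hθ₂ h.symm

/-- The trivial predicate satisfies both criteria. -/
theorem fibCrit_true (e : B₁ →ₐ[k] k) :
    FibCrit e (fun _ _ _ (_ : CurveGD k B₀ B₁ B₀₁ _) => True) :=
  fun _ _ _ _ _ _ _ => trivial

theorem spreadCrit_true (e : B₁ →ₐ[k] k) :
    SpreadCrit e (fun _ _ _ (_ : CurveGD k B₀ B₁ B₀₁ _) => True) := by
  intro A _ _ G _ _ K _ _ ψ GK _ _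
  exact ⟨1, by rw [map_one]; exact one_ne_zero, fun _ _ _ _ _ _ _ => trivial⟩

end

end Fermat.Agent.S25.H11
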