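import Fermat.Agent.S25.H11.ACLeaves
import Fermat.Agent.S25.H11.ACFormal
import Fermat.Agent.S25.H926.AlgChartsFormal
import Fermat.Agent.S25.H207.ChartCor

/-!
# Row S25, block ALGCHARTS: `Stmt.AlgCharts` from the leaves (helper11)

`algCharts_of_leaves`: the nine leaves of `ACLeaves.lean` imply `Stmt.AlgCharts`.
The charts are the good numeric chart indices; the chart atlas of helper926
(`H926.ChartAtlas`, `H926.algCharts_of_atlas`) is built from the leaves: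
`inj ⇐ PointBC + PointUnique`, `fib`/`spread ⇐ Stage0–4 + PointIso + PointBC`, `cover ⇐ Cover`.
The gluing-datum calculus is helper265's (`H265`).
-/

set_option autoImplicit false

universe u

open scoped TensorProduct

namespace Fermat.Agent.S25.H11

open Fermat.Agent.S25

section

variable {k : Type u} [Field k] {B₀ B₁ B₀₁ : Type u} [CommRing B₀] [CommRing B₁] [CommRing B₀₁]
  [Algebra k B₀] [Algebra k B₁] [Algebra k B₀₁] [Algebra B₀ B₀₁] [Algebra B₁ B₀₁]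
  [IsScalarTower k B₀ B₀₁] [IsScalarTower k B₁ B₀₁]
  {x : B₀} {y : B₁} {e : B₁ →ₐ[k] k}

/-! ### The chain of stages -/

section Chain

variable {A : Type u} [CommRing A] [Algebra k A]

theorem P1.p0 {n : ℕ} {m : ℕ} {q : Fin m → (B₀ →ₐ[k] k)} {G : CurveGD k B₀ B₁ B₀₁ A}
    (h : P1 x n q G) : P0 x n G := h.1

theorem P2.p1 {n : ℕ} {m : ℕ} {q : Fin m → (B₀ →ₐ[k] k)} {G : CurveGD k B₀ B₁ B₀₁ A}
    (h : P2 x y n q G) : P1 x n q G := h.1

theorem P3.p2 {n : ℕ} {m : ℕ} {q : Fin m → (B₀ →ₐ[k] k)} {g : ℕ} {β : Fin g → B₀}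
    {G : CurveGD k B₀ B₁ B₀₁ A} (h : P3 x y n q β G) : P2 x y n q G := by
  obtain ⟨h1, s, hs, -⟩ := h
  exact ⟨h1, s, hs⟩

theorem isChart_univIdeal_map {g : ℕ} (β : Fin g → B₀) (φ₀ : H491.Rβ k β →ₐ[k] A) :
    H491.IsChart β ((H491.univIdeal (k := k) β).map (H491.bc B₀ φ₀)) := by
  rw [← H491.hilbChartEquiv_eq_map]
  exact (H491.hilbChartEquiv β A φ₀).2

theorem P4.p3 {i : ChartIndex k B₀} {G : CurveGD k B₀ B₁ B₀₁ A} (h : P4 x y i G) :
    P3 x y i.n i.q i.β G := by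
  obtain ⟨φ₀, hpc⟩ := h
  obtain ⟨s, hs, hspan⟩ := hpc.sect
  exact ⟨hpc.p1, s, hs, _, isChart_univIdeal_map i.β φ₀, hspan⟩

end Chain

variable [IsAlgClosed k]

/-- The fibrewise criterion and openness for membership `P4` in the chart `i`. -/
theorem p4_crit (hC : IsCurveChart k B₀ B₁ B₀₁ x y e)
    (h0 : Leaf.Stage0 k B₀ B₁ B₀₁) (h1 : Leaf.Stage1 k B₀ B₁ B₀₁)
    (h2 : Leaf.Stage2 k B₀ B₁ B₀₁) (h3 : Leaf.Stage3 k B₀ B₁ B₀₁)
    (h4 : Leaf.Stage4 k B₀ B₁ B₀₁) (i : ChartIndex k B₀) (hnum : i.Numeric B₀₁ y) :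
    FibCrit e (fun A _ _ (G : CurveGD k B₀ B₁ B₀₁ A) => P4 x y i G) ∧
      SpreadCrit e (fun A _ _ (G : CurveGD k B₀ B₁ B₀₁ A) => P4 x y i G) := by
  -- stage 0
  have hL0 : ∀ (A : Type u) [CommRing A] [Algebra k A] (G : CurveGD k B₀ B₁ B₀₁ A),
      G.Rigidifiable e → G.Deg0 → True →
        HasLocusAt (fun A _ _ (G : CurveGD k B₀ B₁ B₀₁ A) => P0 x i.n G) A G :=
    fun A _ _ G _ _ _ => h0 x y e hC i.n A G
  have f0 := fibCrit_step (e := e) (fun _ _ _ _ _ => trivial) (fibCrit_true e) hL0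
  have s0 := spreadCrit_step (e := e) (fun _ _ _ _ _ => trivial) (fibCrit_true e)
    (spreadCrit_true e) hL0
  -- stage 1
  have hL1 : ∀ (A : Type u) [CommRing A] [Algebra k A] (G : CurveGD k B₀ B₁ B₀₁ A),
      G.Rigidifiable e → G.Deg0 → P0 x i.n G →
        HasLocusAt (fun A _ _ (G : CurveGD k B₀ B₁ B₀₁ A) => P1 x i.n i.q G) A G :=
    fun A _ _ G _ _ hp => h1 x y e hC i.n i.q A G hp
  have f1 := fibCrit_step (e := e) (fun _ _ _ _ h => P1.p0 h) f0 hL1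
  have s1 := spreadCrit_step (e := e) (fun _ _ _ _ h => P1.p0 h) f0 s0 hL1
  -- stage 2
  have hL2 : ∀ (A : Type u) [CommRing A] [Algebra k A] (G : CurveGD k B₀ B₁ B₀₁ A),
      G.Rigidifiable e → G.Deg0 → P1 x i.n i.q G →
        HasLocusAt (fun A _ _ (G : CurveGD k B₀ B₁ B₀₁ A) => P2 x y i.n i.q G) A G :=
    fun A _ _ G hr hd hp => h2 x y e hC i hnum A G hr hd hp
  have f2 := fibCrit_step (e := e) (fun _ _ _ _ h => P2.p1 h) f1 hL2
  have s2 := spreadCrit_step (e := e) (fun _ _ _ _ h => P2.p1 h) f1 s1 hL2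
  -- stage 3
  have hL3 : ∀ (A : Type u) [CommRing A] [Algebra k A] (G : CurveGD k B₀ B₁ B₀₁ A),
      G.Rigidifiable e → G.Deg0 → P2 x y i.n i.q G →
        HasLocusAt (fun A _ _ (G : CurveGD k B₀ B₁ B₀₁ A) => P3 x y i.n i.q i.β G) A G :=
    fun A _ _ G hr hd hp => h3 x y e hC i hnum A G hr hd hp
  have f3 := fibCrit_step (e := e) (fun _ _ _ _ h => P3.p2 h) f2 hL3
  have s3 := spreadCrit_step (e := e) (fun _ _ _ _ h => P3.p2 h) f2 s2 hL3
  -- stage 4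
  have hL4 : ∀ (A : Type u) [CommRing A] [Algebra k A] (G : CurveGD k B₀ B₁ B₀₁ A),
      G.Rigidifiable e → G.Deg0 → P3 x y i.n i.q i.β G →
        HasLocusAt (fun A _ _ (G : CurveGD k B₀ B₁ B₀₁ A) => P4 x y i G) A G :=
    fun A _ _ G hr hd hp => h4 x y e hC i hnum A G hr hd hp
  exact ⟨fibCrit_step (e := e) (fun _ _ _ _ h => P4.p3 h) f3 hL4,
    spreadCrit_step (e := e) (fun _ _ _ _ h => P4.p3 h) f3 s3 hL4⟩

/-! ### Points of a good chart -/

section Points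

variable {A : Type u} [CommRing A] [Algebra k A]

/-- A point of the chart ring gives the point conditions. -/
theorem pointCond_of_isBC (hC : IsCurveChart k B₀ B₁ B₀₁ x y e)
    (hBC : Leaf.PointBC k B₀ B₁ B₀₁) (i : ChartIndex k B₀) (hnum : i.Numeric B₀₁ y)
    {D : CurveGD k B₀ B₁ B₀₁ (chartRing i)} (hDr : D.Rigidifiable e) (hDd : D.Deg0)
    (hD : PointCond x y i D (chartCan i)) {G : CurveGD k B₀ B₁ B₀₁ A}
    (φ : chartRing i →ₐ[k] A) (hφ : CurveGD.IsBC φ D G) :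
    PointCond x y i G (φ.comp (chartCan i)) :=
  hBC x y e hC i hnum (chartRing i) A D G φ hφ hDr hDd (chartCan i) hD

/-- The point conditions give a point of the chart ring. -/
theorem isBC_of_pointCond (hC : IsCurveChart k B₀ B₁ B₀₁ x y e)
    (hBC : Leaf.PointBC k B₀ B₁ B₀₁) (hI : Leaf.PointIso k B₀ B₁ B₀₁)
    (i : ChartIndex k B₀) (hnum : i.Numeric B₀₁ y)
    {D : CurveGD k B₀ B₁ B₀₁ (chartRing i)} (hDr : D.Rigidifiable e) (hDd : D.Deg0)
    (hD : PointCond x y i D (chartCan i)) {G : CurveGD k B₀ B₁ B₀₁ A}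
    {φ₀ : H491.Rβ k i.β →ₐ[k] A} (h : PointCond x y i G φ₀) :
    ∃ φ : chartRing i →ₐ[k] A, CurveGD.IsBC φ D G := by
  let φ : chartRing i →ₐ[k] A :=
    IsLocalization.Away.liftAlgHom (S := chartRing i) i.f (f := φ₀) h.unit
  have hφ : φ.comp (chartCan i) = φ₀ := by
    ext b
    simp [φ, chartCan, IsLocalization.Away.lift_eq]
  obtain ⟨G', hG'⟩ := H265.curveGD_exists_isBC φ D
  have h' := pointCond_of_isBC hC hBC i hnum hDr hDd hD φ hG'
  rw [hφ] at h'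
  exact ⟨φ, H265.curveGD_isBC_of_isIso_right hG' (hI x y e hC i A G' G φ₀ h' h)⟩

end Points

/-! ### The atlas -/

variable (B₀₁ x y e) in
/-- The index set of the atlas: good numeric chart indices. -/
def AtlasIndex : Type u :=
  {i : ChartIndex k B₀ // i.Numeric B₀₁ y ∧ ChartIndex.Good (B₀₁ := B₀₁) x y e i}

/-- The universal datum of a good chart. -/
noncomputable def atlasDatum (i : AtlasIndex B₀₁ x y e) :
    CurveGD k B₀ B₁ B₀₁ (chartRing i.1) :=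
  i.2.2.choose

theorem atlasDatum_rig (i : AtlasIndex B₀₁ x y e) :
    (atlasDatum i).Rigidifiable e := i.2.2.choose_spec.1

theorem atlasDatum_deg0 (i : AtlasIndex B₀₁ x y e) :
    (atlasDatum i).Deg0 := i.2.2.choose_spec.2.1

theorem atlasDatum_pointCond (i : AtlasIndex B₀₁ x y e) :
    PointCond x y i.1 (atlasDatum i) (chartCan i.1) := i.2.2.choose_spec.2.2

theorem finiteType_chartRing (hC : IsCurveChart k B₀ B₁ B₀₁ x y e) (i : ChartIndex k B₀) :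
    Algebra.FiniteType k (chartRing i) := by
  have : Algebra.FiniteType k B₀ := H207.finiteType_chart₀ hC
  have : Algebra.FiniteType k (H491.Rβ k i.β) := H491.finiteType_Rβ
  have : Algebra.FiniteType (H491.Rβ k i.β) (chartRing i) :=
    IsLocalization.finiteType_of_monoid_fg (Submonoid.powers i.f) (chartRing i)
  exact Algebra.FiniteType.trans ‹Algebra.FiniteType k (H491.Rβ k i.β)›
    ‹Algebra.FiniteType (H491.Rβ k i.β) (chartRing i)›

/-- **The chart atlas from the leaves.** -/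
noncomputable def atlasOfLeaves (hC : IsCurveChart k B₀ B₁ B₀₁ x y e)
    (h0 : Leaf.Stage0 k B₀ B₁ B₀₁) (h1 : Leaf.Stage1 k B₀ B₁ B₀₁)
    (h2 : Leaf.Stage2 k B₀ B₁ B₀₁) (h3 : Leaf.Stage3 k B₀ B₁ B₀₁)
    (h4 : Leaf.Stage4 k B₀ B₁ B₀₁) (hBC : Leaf.PointBC k B₀ B₁ B₀₁)
    (hU : Leaf.PointUnique k B₀ B₁ B₀₁) (hI : Leaf.PointIso k B₀ B₁ B₀₁)
    (hCov : Leaf.Cover k B₀ B₁ B₀₁) : H926.ChartAtlas k B₀ B₁ B₀₁ e where
  ι := AtlasIndex B₀₁ x y e
  R := fun i => chartRing i.1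
  finiteType := fun i => finiteType_chartRing hC i.1
  datum := fun i => atlasDatum i
  rig := fun i => atlasDatum_rig i
  deg0 := fun i => atlasDatum_deg0 i
  inj := by
    intro i A _ _ φ ψ G G' hφ hψ hiso
    have hG := pointCond_of_isBC hC hBC i.1 i.2.1 (atlasDatum_rig i) (atlasDatum_deg0 i)
      (atlasDatum_pointCond i) φ hφ
    have hψ' : CurveGD.IsBC ψ (atlasDatum i) G :=
      H265.curveGD_isBC_of_isIso_right hψ (H265.isIso_symm hiso)
    have hG' := pointCond_of_isBC hC hBC i.1 i.2.1 (atlasDatum_rig i) (atlasDatum_deg0 i)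
      (atlasDatum_pointCond i) ψ hψ'
    have heq := hU x y e hC i.1 A G _ _ hG hG'
    apply AlgHom.coe_ringHom_injective
    apply IsLocalization.ringHom_ext (Submonoid.powers i.1.f)
    exact RingHom.ext fun b => AlgHom.congr_fun heq b
  fib := by
    intro i A _ _ G hrig hdeg hfib
    obtain ⟨φ₀, hpc⟩ := (p4_crit hC h0 h1 h2 h3 h4 i.1 i.2.1).1 A G hrig hdeg
      (fun K _ _ ψ GK hGK => by
        obtain ⟨φ, hφ⟩ := hfib K ψ GK hGK
        exact ⟨_, pointCond_of_isBC hC hBC i.1 i.2.1 (atlasDatum_rig i) (atlasDatum_deg0 i)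
          (atlasDatum_pointCond i) φ hφ⟩)
    exact isBC_of_pointCond hC hBC hI i.1 i.2.1 (atlasDatum_rig i) (atlasDatum_deg0 i)
      (atlasDatum_pointCond i) hpc
  spread := by
    intro i A _ _ G hrig hdeg K _ _ ψ GK hGK hin
    obtain ⟨φ, hφ⟩ := hin
    have hP : P4 x y i.1 GK :=
      ⟨_, pointCond_of_isBC hC hBC i.1 i.2.1 (atlasDatum_rig i) (atlasDatum_deg0 i)
        (atlasDatum_pointCond i) φ hφ⟩
    obtain ⟨a, ha, hgood⟩ := (p4_crit hC h0 h1 h2 h3 h4 i.1 i.2.1).2 A G hrig hdeg K ψ GK hGK hP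
    refine ⟨a, ha, fun L _ _ θ Gθ hGθ hθ => ?_⟩
    obtain ⟨φ₀, hpc⟩ := hgood L θ Gθ hGθ hθ
    exact isBC_of_pointCond hC hBC hI i.1 i.2.1 (atlasDatum_rig i) (atlasDatum_deg0 i)
      (atlasDatum_pointCond i) hpc
  cover := by
    intro K _ _ _ G hrig hdeg
    obtain ⟨i, hnum, D, hDr, hDd, hD, φ, hφ⟩ := hCov x y e hC K G hrig hdeg
    let j : AtlasIndex B₀₁ x y e := ⟨i, hnum, D, hDr, hDd, hD⟩
    have hiso : D.IsIso (atlasDatum j) :=
      hI x y e hC i (chartRing i) D (atlasDatum j) (chartCan i) hD (atlasDatum_pointCond j)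
    exact ⟨j, φ, H265.curveGD_isBC_of_isIso_left hiso hφ⟩

end

section Final

variable (k : Type u) [Field k] [IsAlgClosed k] (B₀ B₁ B₀₁ : Type u) [CommRing B₀] [CommRing B₁]
  [CommRing B₀₁] [Algebra k B₀] [Algebra k B₁] [Algebra k B₀₁] [Algebra B₀ B₀₁] [Algebra B₁ B₀₁]
  [IsScalarTower k B₀ B₀₁] [IsScalarTower k B₁ B₀₁]

/-- **ALGCHARTS from the leaves.** -/
theorem algCharts_of_leaves
    (h0 : Leaf.Stage0 k B₀ B₁ B₀₁) (h1 : Leaf.Stage1 k B₀ B₁ B₀₁)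
    (h2 : Leaf.Stage2 k B₀ B₁ B₀₁) (h3 : Leaf.Stage3 k B₀ B₁ B₀₁)
    (h4 : Leaf.Stage4 k B₀ B₁ B₀₁) (hBC : Leaf.PointBC k B₀ B₁ B₀₁)
    (hU : Leaf.PointUnique k B₀ B₁ B₀₁) (hI : Leaf.PointIso k B₀ B₁ B₀₁)
    (hCov : Leaf.Cover k B₀ B₁ B₀₁) : Stmt.AlgCharts k B₀ B₁ B₀₁ :=
  H926.algCharts_of_atlas
    (fun _ _ _ _ _ _ φ G => H265.curveGD_exists_isBC φ G)
    (fun _ _ _ _ _ _ _ _ _ _ _ _ _ _ h h' => H265.curveGD_isBC_comp h h')
    (fun _ _ _ _ _ _ _ _ _ _ h hr => H265.rigidifiable_of_isBC h hr)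
    (fun _ _ _ hC => ⟨atlasOfLeaves hC h0 h1 h2 h3 h4 hBC hU hI hCov⟩)

end Final

end Fermat.Agent.S25.H11
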