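import Fermat.Agent.S25.H11.ACDefs

/-!
# Row S25, block ALGCHARTS: the leaves as `Prop`s (squad-lead helper11) — FROZEN

Each leaf of the skeleton `origin/helper11:coord/S25-ALGCHARTS-skeleton.lean` as a `Prop`.
A leaf owner proves, in his own file, either the skeleton statement verbatim or
`theorem … [IsAlgClosed k] : H11.Leaf.X k B₀ B₁ B₀₁` (the two are the same statement).
`ACTop.lean` proves `Stmt.AlgCharts` from the leaves (through helper926's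
`H926.algCharts_of_atlas`).
-/

set_option autoImplicit false

universe u

open scoped TensorProduct

namespace Fermat.Agent.S25.H11

open Fermat.Agent.S25

namespace Leaf

variable (k : Type u) [Field k] (B₀ B₁ B₀₁ : Type u) [CommRing B₀] [CommRing B₁] [CommRing B₀₁]
  [Algebra k B₀] [Algebra k B₁] [Algebra k B₀₁] [Algebra B₀ B₀₁] [Algebra B₁ B₀₁]
  [IsScalarTower k B₀ B₀₁] [IsScalarTower k B₁ B₀₁]

/-- STAGE 0: the locus `H¹(G(nE₀)) = 0`. -/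
def Stage0 : Prop :=
  ∀ (x : B₀) (y : B₁) (e : B₁ →ₐ[k] k), IsCurveChart k B₀ B₁ B₀₁ x y e →
  ∀ (n : ℕ) (A : Type u) [CommRing A] [Algebra k A] (G : CurveGD k B₀ B₁ B₀₁ A),
    ∃ J : Ideal A, ∀ (A' : Type u) [CommRing A'] [Algebra k A'] (ψ : A →ₐ[k] A')
      (G' : CurveGD k B₀ B₁ B₀₁ A'), CurveGD.IsBC ψ G G' →
        (P0 x n G' ↔ J.map ψ.toRingHom = ⊤)

/-- STAGE 1: given `P0`, the locus where `H⁰(G(nE₀)) → N₀ / I_q N₀` is onto. -/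
def Stage1 : Prop :=
  ∀ (x : B₀) (y : B₁) (e : B₁ →ₐ[k] k), IsCurveChart k B₀ B₁ B₀₁ x y e →
  ∀ (n : ℕ) {m : ℕ} (q : Fin m → (B₀ →ₐ[k] k)) (A : Type u) [CommRing A] [Algebra k A]
    (G : CurveGD k B₀ B₁ B₀₁ A), P0 x n G →
    ∃ J : Ideal A, ∀ (A' : Type u) [CommRing A'] [Algebra k A'] (ψ : A →ₐ[k] A')
      (G' : CurveGD k B₀ B₁ B₀₁ A'), CurveGD.IsBC ψ G G' →
        (P1 x n q G' ↔ J.map ψ.toRingHom = ⊤)

/-- STAGE 2: given `P1`, the locus where `H⁰(G(nE₀ - Σq))` (of rank one) generates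
`N₁ / y N₁`; there it is free on a generator. -/
def Stage2 : Prop :=
  ∀ (x : B₀) (y : B₁) (e : B₁ →ₐ[k] k), IsCurveChart k B₀ B₁ B₀₁ x y e →
  ∀ (i : ChartIndex k B₀), i.Numeric B₀₁ y →
  ∀ (A : Type u) [CommRing A] [Algebra k A] (G : CurveGD k B₀ B₁ B₀₁ A),
    G.Rigidifiable e → G.Deg0 → P1 x i.n i.q G →
    ∃ J : Ideal A, ∀ (A' : Type u) [CommRing A'] [Algebra k A'] (ψ : A →ₐ[k] A')
      (G' : CurveGD k B₀ B₁ B₀₁ A'), CurveGD.IsBC ψ G G' →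
        (P2 x y i.n i.q G' ↔ J.map ψ.toRingHom = ⊤)

/-- STAGE 3: given `P2`, the locus where `D' = div s - Σq` lies in the Hilbert chart `β`. -/
def Stage3 : Prop :=
  ∀ (x : B₀) (y : B₁) (e : B₁ →ₐ[k] k), IsCurveChart k B₀ B₁ B₀₁ x y e →
  ∀ (i : ChartIndex k B₀), i.Numeric B₀₁ y →
  ∀ (A : Type u) [CommRing A] [Algebra k A] (G : CurveGD k B₀ B₁ B₀₁ A),
    G.Rigidifiable e → G.Deg0 → P2 x y i.n i.q G →
    ∃ J : Ideal A, ∀ (A' : Type u) [CommRing A'] [Algebra k A'] (ψ : A →ₐ[k] A')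
      (G' : CurveGD k B₀ B₁ B₀₁ A'), CurveGD.IsBC ψ G G' →
        (P3 x y i.n i.q i.β G' ↔ J.map ψ.toRingHom = ⊤)

/-- STAGE 4: given `P3`, the locus where `f` is invertible. -/
def Stage4 : Prop :=
  ∀ (x : B₀) (y : B₁) (e : B₁ →ₐ[k] k), IsCurveChart k B₀ B₁ B₀₁ x y e →
  ∀ (i : ChartIndex k B₀), i.Numeric B₀₁ y →
  ∀ (A : Type u) [CommRing A] [Algebra k A] (G : CurveGD k B₀ B₁ B₀₁ A),
    G.Rigidifiable e → G.Deg0 → P3 x y i.n i.q i.β G →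
    ∃ J : Ideal A, ∀ (A' : Type u) [CommRing A'] [Algebra k A'] (ψ : A →ₐ[k] A')
      (G' : CurveGD k B₀ B₁ B₀₁ A'), CurveGD.IsBC ψ G G' →
        (P4 x y i G' ↔ J.map ψ.toRingHom = ⊤)

/-- PT-BC: the point conditions are compatible with base change, with Hilbert coordinates
`ψ ∘ φ₀`. -/
def PointBC : Prop :=
  ∀ (x : B₀) (y : B₁) (e : B₁ →ₐ[k] k), IsCurveChart k B₀ B₁ B₀₁ x y e →
  ∀ (i : ChartIndex k B₀), i.Numeric B₀₁ y →
  ∀ (A A' : Type u) [CommRing A] [Algebra k A] [CommRing A'] [Algebra k A']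
    (G : CurveGD k B₀ B₁ B₀₁ A) (G' : CurveGD k B₀ B₁ B₀₁ A') (ψ : A →ₐ[k] A'),
    CurveGD.IsBC ψ G G' → G.Rigidifiable e → G.Deg0 →
    ∀ φ₀ : H491.Rβ k i.β →ₐ[k] A, PointCond x y i G φ₀ → PointCond x y i G' (ψ.comp φ₀)

/-- PT-UNIQ: the Hilbert coordinates of a point are unique. -/
def PointUnique : Prop :=
  ∀ (x : B₀) (y : B₁) (e : B₁ →ₐ[k] k), IsCurveChart k B₀ B₁ B₀₁ x y e →
  ∀ (i : ChartIndex k B₀) (A : Type u) [CommRing A] [Algebra k A]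
    (G : CurveGD k B₀ B₁ B₀₁ A) (φ₀ φ₀' : H491.Rβ k i.β →ₐ[k] A),
    PointCond x y i G φ₀ → PointCond x y i G φ₀' → φ₀ = φ₀'

/-- PT-ISO: two gluing data with the same Hilbert coordinates are isomorphic. -/
def PointIso : Prop :=
  ∀ (x : B₀) (y : B₁) (e : B₁ →ₐ[k] k), IsCurveChart k B₀ B₁ B₀₁ x y e →
  ∀ (i : ChartIndex k B₀) (A : Type u) [CommRing A] [Algebra k A]
    (G G' : CurveGD k B₀ B₁ B₀₁ A) (φ₀ : H491.Rβ k i.β →ₐ[k] A),
    PointCond x y i G φ₀ → PointCond x y i G' φ₀ → G.IsIso G'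

/-- COVER: over an algebraically closed field every rigidifiable gluing datum of degree zero
is a point of a good chart. -/
def Cover : Prop :=
  ∀ (x : B₀) (y : B₁) (e : B₁ →ₐ[k] k), IsCurveChart k B₀ B₁ B₀₁ x y e →
  ∀ (K : Type u) [Field K] [Algebra k K] [IsAlgClosed K] (G : CurveGD k B₀ B₁ B₀₁ K),
    G.Rigidifiable e → G.degree = 0 →
    ∃ i : ChartIndex k B₀, i.Numeric B₀₁ y ∧ ∃ D : CurveGD k B₀ B₁ B₀₁ (chartRing i),
      D.Rigidifiable e ∧ D.Deg0 ∧ PointCond x y i D (chartCan i) ∧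
        ∃ φ : chartRing i →ₐ[k] K, CurveGD.IsBC φ D G

end Leaf

end Fermat.Agent.S25.H11
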