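import Fermat.Agent.S25.DefsAlg
import Fermat.Agent.S25.H491.HilbLocus

/-!
# Row S25, block ALGCHARTS: frozen definitions (squad-lead helper11)

Pure commutative algebra on top of the frozen `DefsAlg.lean` and helper491's Hilbert charts.

For a curve chart `(B₀, B₁, B₀₁, x, y, e)` and a gluing datum `G` over `A`:

* `tcech x n G` : the Čech differential of the twist `G(n E₀)`,
  `(a, b) ↦ r₀ a - (1 ⊗ x) ^ n • r₁ b`;  `sec x n G = ker` is `H⁰(G(n E₀))`.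
* `ptIdeal q A` : the ideal of the divisor `Σ q i` on `Spec (A ⊗ B₀)` (`q i` are `k`-points of
  `Spec B₀`);  `secq x n q G` : the sections of `G(n E₀)` vanishing on `Σ q i`.
* `ChartIndex` : the index `(n, m, g, q, β, f)` of a chart; `chartRing i = (Rβ)_f`.
* `IsGen`, `P0 … P3`, `PointCond` : the successive chart conditions.

The chart `i` consists of the `G` such that `G(n E₀ - Σ q)` has `H¹ = 0`, its `H⁰` is free of rank
one on a section `s` which does not vanish on `E₀ = {y = 0}`, and whose divisor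
`D' = div s - Σ q ⊆ Spec (A ⊗ B₀)` lies in the Hilbert chart of `β` and in `D(f)`.
-/

set_option autoImplicit false

universe u

open scoped TensorProduct

namespace Fermat.Agent.S25.H11

open Fermat.Agent.S25

noncomputable section

variable {k : Type u} [Field k] {B₀ B₁ B₀₁ : Type u} [CommRing B₀] [CommRing B₁] [CommRing B₀₁]
  [Algebra k B₀] [Algebra k B₁] [Algebra k B₀₁] [Algebra B₀ B₀₁] [Algebra B₁ B₀₁]
  [IsScalarTower k B₀ B₀₁] [IsScalarTower k B₁ B₀₁]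

section Sections

variable {A : Type u} [CommRing A] [Algebra k A]

variable (k B₀₁) in
/-- The element `1 ⊗ x` of `A ⊗[k] B₀₁` (`x : B₀`). -/
def xElt (A : Type u) [CommRing A] [Algebra k A] (x : B₀) : A ⊗[k] B₀₁ :=
  (1 : A) ⊗ₜ[k] algebraMap B₀ B₀₁ x

variable (k) in
/-- The element `1 ⊗ y` of `A ⊗[k] B₁` (`y : B₁`). -/
def yElt (A : Type u) [CommRing A] [Algebra k A] (y : B₁) : A ⊗[k] B₁ :=
  (1 : A) ⊗ₜ[k] y

/-- The Čech differential of the twist `G(n E₀)`: `(a, b) ↦ r₀ a - (1 ⊗ x) ^ n • r₁ b`. -/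
def tcech (x : B₀) (n : ℕ) (G : CurveGD k B₀ B₁ B₀₁ A) : (G.N₀ × G.N₁) →ₗ[A] G.N₀₁ :=
  (G.r₀.restrictScalars A).coprod
    (-((Algebra.lsmul A A G.N₀₁ (xElt k B₀₁ A x ^ n)).comp (G.r₁.restrictScalars A)))

@[simp] theorem tcech_apply (x : B₀) (n : ℕ) (G : CurveGD k B₀ B₁ B₀₁ A) (p : G.N₀ × G.N₁) :
    tcech x n G p = G.r₀ p.1 - xElt k B₀₁ A x ^ n • G.r₁ p.2 := by
  simp only [tcech, LinearMap.coprod_apply, LinearMap.neg_apply, LinearMap.comp_apply,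
    LinearMap.restrictScalars_apply, Algebra.lsmul_coe, sub_eq_add_neg]

/-- `H⁰(G(n E₀))`: pairs `(a, b)` with `r₀ a = (1 ⊗ x) ^ n • r₁ b`. -/
abbrev sec (x : B₀) (n : ℕ) (G : CurveGD k B₀ B₁ B₀₁ A) : Submodule A (G.N₀ × G.N₁) :=
  LinearMap.ker (tcech x n G)

theorem mem_sec {x : B₀} {n : ℕ} {G : CurveGD k B₀ B₁ B₀₁ A} {p : G.N₀ × G.N₁} :
    p ∈ sec x n G ↔ G.r₀ p.1 = xElt k B₀₁ A x ^ n • G.r₁ p.2 := by
  rw [LinearMap.mem_ker, tcech_apply, sub_eq_zero]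

/-- The `A`-point of `Spec B₀` given by a `k`-point `p`. -/
def ptHom (p : B₀ →ₐ[k] k) (A : Type u) [CommRing A] [Algebra k A] : A ⊗[k] B₀ →ₐ[A] A :=
  Algebra.TensorProduct.lift (AlgHom.id A A) ((Algebra.ofId k A).comp p)
    (fun _ _ => Commute.all _ _)

@[simp] theorem ptHom_tmul (p : B₀ →ₐ[k] k) (a : A) (b : B₀) :
    ptHom p A (a ⊗ₜ[k] b) = a * algebraMap k A (p b) := by
  simp [ptHom, Algebra.ofId_apply]

/-- The ideal of the divisor `Σ q i` on `Spec (A ⊗[k] B₀)`. -/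
def ptIdeal {m : ℕ} (q : Fin m → (B₀ →ₐ[k] k)) (A : Type u) [CommRing A] [Algebra k A] :
    Ideal (A ⊗[k] B₀) :=
  ∏ i, RingHom.ker (ptHom (q i) A)

/-- The submodule `I_q • N₀` of sections over `Spec (A ⊗ B₀)` vanishing on `Σ q i`. -/
def vanq {m : ℕ} (q : Fin m → (B₀ →ₐ[k] k)) (G : CurveGD k B₀ B₁ B₀₁ A) :
    Submodule (A ⊗[k] B₀) G.N₀ :=
  ptIdeal q A • ⊤

/-- The sections of `G(n E₀)` vanishing on `Σ q i`, i.e. `H⁰(G(n E₀ - Σ q))`. -/
def secq (x : B₀) (n : ℕ) {m : ℕ} (q : Fin m → (B₀ →ₐ[k] k)) (G : CurveGD k B₀ B₁ B₀₁ A) :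
    Submodule A (G.N₀ × G.N₁) :=
  sec x n G ⊓ ((vanq q G).restrictScalars A).comap (LinearMap.fst A G.N₀ G.N₁)

theorem mem_secq {x : B₀} {n : ℕ} {m : ℕ} {q : Fin m → (B₀ →ₐ[k] k)}
    {G : CurveGD k B₀ B₁ B₀₁ A} {p : G.N₀ × G.N₁} :
    p ∈ secq x n q G ↔ p ∈ sec x n G ∧ p.1 ∈ vanq q G := Iff.rfl

/-- `b` generates `N₁` modulo `y`: the section `b` of `N₁` does not vanish at any point of
`E₀ = {y = 0}`. -/
def GenModY (y : B₁) (G : CurveGD k B₀ B₁ B₀₁ A) (b : G.N₁) : Prop :=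
  ∀ c : G.N₁, ∃ r : A ⊗[k] B₁,
    c - r • b ∈ (Ideal.span {yElt k A y} • ⊤ : Submodule (A ⊗[k] B₁) G.N₁)

/-- `s` is a free generator of `H⁰(G(n E₀ - Σ q))` which does not vanish on `E₀`. -/
structure IsGen (x : B₀) (y : B₁) (n : ℕ) {m : ℕ} (q : Fin m → (B₀ →ₐ[k] k))
    (G : CurveGD k B₀ B₁ B₀₁ A) (s : G.N₀ × G.N₁) : Prop where
  mem : s ∈ secq x n q G
  span : ∀ t ∈ secq x n q G, ∃ a : A, t = a • s
  gen : GenModY y G s.2

/-- Stage 0: `H¹(G(n E₀)) = 0`. -/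
def P0 (x : B₀) (n : ℕ) (G : CurveGD k B₀ B₁ B₀₁ A) : Prop :=
  Function.Surjective (tcech x n G)

/-- Stage 1: moreover `H⁰(G(n E₀)) → N₀ / I_q N₀` is onto, i.e. `H¹(G(n E₀ - Σ q)) = 0`. -/
def P1 (x : B₀) (n : ℕ) {m : ℕ} (q : Fin m → (B₀ →ₐ[k] k)) (G : CurveGD k B₀ B₁ B₀₁ A) :
    Prop :=
  P0 x n G ∧ ∀ a : G.N₀, ∃ s ∈ sec x n G, a - s.1 ∈ vanq q G

/-- Stage 2: moreover `H⁰(G(n E₀ - Σ q))` is free of rank one on a section not vanishing on
`E₀`. -/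
def P2 (x : B₀) (y : B₁) (n : ℕ) {m : ℕ} (q : Fin m → (B₀ →ₐ[k] k))
    (G : CurveGD k B₀ B₁ B₀₁ A) : Prop :=
  P1 x n q G ∧ ∃ s, IsGen x y n q G s

/-- Stage 3: moreover the divisor `D' = div s - Σ q` lies in the Hilbert chart of `β`. -/
def P3 (x : B₀) (y : B₁) (n : ℕ) {m : ℕ} (q : Fin m → (B₀ →ₐ[k] k)) {g : ℕ} (β : Fin g → B₀)
    (G : CurveGD k B₀ B₁ B₀₁ A) : Prop :=
  P1 x n q G ∧ ∃ s, IsGen x y n q G s ∧ ∃ I' : Ideal (A ⊗[k] B₀), H491.IsChart β I' ∧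
    Submodule.span (A ⊗[k] B₀) {s.1} = (I' * ptIdeal q A) • (⊤ : Submodule (A ⊗[k] B₀) G.N₀)

end Sections

/-! ## Chart indices -/

variable (k B₀) in
/-- The index of a chart of the algebraic Picard functor: the twist `n`, the `m` points `q`,
the Hilbert chart `β` of `Hilb^g (Spec B₀)` and an element `f` of its coordinate ring. -/
structure ChartIndex where
  n : ℕ
  m : ℕ
  g : ℕ
  q : Fin m → (B₀ →ₐ[k] k)
  β : Fin g → B₀
  f : H491.Rβ k β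

/-- The coordinate ring `(Rβ)_f` of the chart `i`. -/
abbrev chartRing (i : ChartIndex k B₀) : Type u := Localization.Away i.f

/-- The canonical map `Rβ → (Rβ)_f`. -/
def chartCan (i : ChartIndex k B₀) : H491.Rβ k i.β →ₐ[k] chartRing i :=
  IsScalarTower.toAlgHom k (H491.Rβ k i.β) (chartRing i)

section PointCond

variable {A : Type u} [CommRing A] [Algebra k A]

/-- `G` over `A` is the point of the chart `i` with Hilbert coordinates `φ₀ : Rβ → A`. -/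
structure PointCond (x : B₀) (y : B₁) (i : ChartIndex k B₀) (G : CurveGD k B₀ B₁ B₀₁ A)
    (φ₀ : H491.Rβ k i.β →ₐ[k] A) : Prop where
  p1 : P1 x i.n i.q G
  sect : ∃ s, IsGen x y i.n i.q G s ∧
    Submodule.span (A ⊗[k] B₀) {s.1} =
      ((H491.univIdeal (k := k) i.β).map (H491.bc B₀ φ₀) * ptIdeal i.q A) •
        (⊤ : Submodule (A ⊗[k] B₀) G.N₀)
  unit : IsUnit (φ₀ i.f)

/-- Stage 4 = membership in the chart `i`. -/
def P4 (x : B₀) (y : B₁) (i : ChartIndex k B₀) (G : CurveGD k B₀ B₁ B₀₁ A) : Prop :=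
  ∃ φ₀ : H491.Rβ k i.β →ₐ[k] A, PointCond x y i G φ₀

end PointCond

/-- A chart index is *good* if the universal point exists over its coordinate ring. -/
def ChartIndex.Good (x : B₀) (y : B₁) (e : B₁ →ₐ[k] k) (i : ChartIndex k B₀) : Prop :=
  ∃ D : CurveGD k B₀ B₁ B₀₁ (chartRing i),
    D.Rigidifiable e ∧ D.Deg0 ∧ PointCond x y i D (chartCan i)

variable (B₀₁) in
/-- The numerical constraint on a chart index: `m + g = n · d` with `d = dim_k B₁ / (y)`, and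
`g = dim_k H¹(O)` is the genus. -/
def ChartIndex.Numeric (y : B₁) (i : ChartIndex k B₀) : Prop :=
  i.m + i.g = i.n * Module.finrank k (B₁ ⧸ Ideal.span {y}) ∧
    i.g = Module.finrank k (GlueDatum.unit k (k ⊗[k] B₀) (k ⊗[k] B₁) (k ⊗[k] B₀₁)).H1

end

end Fermat.Agent.S25.H11
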