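import Fermat.Agent.S25.H11.ACStage4
import Fermat.Agent.S25.H791.ACLeaf01
import Fermat.Agent.S25.H791.ACPointBC
import Fermat.Agent.S25.H431.ACPointUnique
import Fermat.Agent.S25.H490.ACPtIso

/-!
# Row S25, block ALGCHARTS: `Stmt.AlgCharts` from the three leaves still open (helper11)

`Stage0`, `Stage1`, `PointBC` (helper791), `PointUnique` (helper431), `PointIso` (helper490)
and `Stage4` (formal) are plugged in; what remains is `Stage2`, `Stage3` and `Cover`.
-/

set_option autoImplicit false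

universe u

open scoped TensorProduct

namespace Fermat.Agent.S25.H11

open Fermat.Agent.S25

variable (k : Type u) [Field k] [IsAlgClosed k] (B₀ B₁ B₀₁ : Type u) [CommRing B₀]
  [CommRing B₁] [CommRing B₀₁] [Algebra k B₀] [Algebra k B₁] [Algebra k B₀₁] [Algebra B₀ B₀₁]
  [Algebra B₁ B₀₁] [IsScalarTower k B₀ B₀₁] [IsScalarTower k B₁ B₀₁]

/-- Leaf PT-ISO (helper490). -/
theorem leaf_pointIso : Leaf.PointIso k B₀ B₁ B₀₁ :=
  fun _ _ _ hC i _ _ _ _ _ _ h h' => H490.pointCond_iso hC i h h'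

/-- `Stmt.AlgCharts` from the leaves `Stage2`, `Stage3` and `Cover`. -/
theorem algCharts_of_three (h2 : Leaf.Stage2 k B₀ B₁ B₀₁) (h3 : Leaf.Stage3 k B₀ B₁ B₀₁)
    (hcov : Leaf.Cover k B₀ B₁ B₀₁) : Stmt.AlgCharts k B₀ B₁ B₀₁ :=
  algCharts_of_leaves₈ H791.leaf_stage0 H791.leaf_stage1 h2 h3 H791.leaf_pointBC
    H431.leaf_pointUnique (leaf_pointIso k B₀ B₁ B₀₁) hcov

end Fermat.Agent.S25.H11
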