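import Mathlib

/-!
# S25 / HILB / H3, part 1 (helper11): base change of the diagonal

`k` a commutative ring, `B`, `Q` commutative `k`-algebras, `φ : B →ₐ[k] Q`.
If the diagonal ideal `J = ker (B ⊗ B → B)` is an invertible `B ⊗ B`-module, then the ideal
`graphIdeal φ = ker (Q ⊗ B → Q, q ⊗ b ↦ q φ(b))` of the graph of `φ` is an invertible
`Q ⊗ B`-module: it is the base change `(Q ⊗ B) ⊗_{B ⊗ B} J` along `φ ⊗ id`.
-/

set_option autoImplicit false
set_option linter.style.haveILetI false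

open TensorProduct

namespace Fermat.Agent.S25.H11

universe u

variable {k : Type u} [CommRing k] {B : Type u} [CommRing B] [Algebra k B]
  {Q : Type u} [CommRing Q] [Algebra k Q] (φ : B →ₐ[k] Q)

/-- The retraction `Q ⊗ B → Q`, `q ⊗ b ↦ q φ(b)`. -/
noncomputable def graphHom : Q ⊗[k] B →ₐ[Q] Q :=
  Algebra.TensorProduct.lift (AlgHom.id Q Q) φ (fun _ _ => Commute.all _ _)

@[simp] lemma graphHom_tmul (q : Q) (b : B) : graphHom φ (q ⊗ₜ[k] b) = q * φ b := by
  simp [graphHom]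

/-- The ideal of the graph of `φ`. -/
noncomputable def graphIdeal : Ideal (Q ⊗[k] B) := RingHom.ker (graphHom φ)

lemma mem_graphIdeal {x : Q ⊗[k] B} : x ∈ graphIdeal φ ↔ graphHom φ x = 0 := Iff.rfl

/-- `φ ⊗ id : B ⊗ B → Q ⊗ B`. -/
noncomputable def psi : B ⊗[k] B →ₐ[k] Q ⊗[k] B :=
  Algebra.TensorProduct.map φ (AlgHom.id k B)

@[simp] lemma psi_tmul (x y : B) : psi φ (x ⊗ₜ[k] y) = φ x ⊗ₜ[k] y := by
  simp [psi]

lemma graphHom_psi (e : B ⊗[k] B) :
    graphHom φ (psi φ e) = φ (Algebra.TensorProduct.lmul' k e) := by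
  induction e using TensorProduct.induction_on with
  | zero => simp
  | tmul x y => simp
  | add x y hx hy => simp only [map_add, hx, hy]

/-- The diagonal ideal. -/
local notation "J" => KaehlerDifferential.ideal k B

/-- `d b = 1 ⊗ b - b ⊗ 1` as an element of the diagonal ideal. -/
noncomputable def dElem (b : B) : KaehlerDifferential.ideal k B :=
  ⟨(1 : B) ⊗ₜ[k] b - b ⊗ₜ[k] (1 : B), KaehlerDifferential.one_smul_sub_smul_one_mem_ideal k b⟩

@[simp] lemma dElem_coe (b : B) :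
    ((dElem (k := k) b : KaehlerDifferential.ideal k B) : B ⊗[k] B) =
      (1 : B) ⊗ₜ[k] b - b ⊗ₜ[k] (1 : B) := rfl

lemma dElem_add (b b' : B) : dElem (k := k) (b + b') = dElem b + dElem b' := by
  apply Subtype.ext
  simp [dElem, TensorProduct.tmul_add, TensorProduct.add_tmul]
  abel

lemma dElem_smul (c : k) (b : B) : dElem (k := k) (c • b) = c • dElem b := by
  apply Subtype.ext
  simp [dElem, TensorProduct.tmul_smul, TensorProduct.smul_tmul', smul_sub]

/-- `ρ_{b'} e = (1 ⊗ b') e - (b' μ(e)) ⊗ 1`, an element of the diagonal ideal. -/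
noncomputable def rhoElem (b' : B) (e : B ⊗[k] B) : KaehlerDifferential.ideal k B :=
  ⟨((1 : B) ⊗ₜ[k] b') * e - (b' * Algebra.TensorProduct.lmul' k e) ⊗ₜ[k] (1 : B), by
    simp [RingHom.mem_ker]⟩

lemma rhoElem_add (b' : B) (e e' : B ⊗[k] B) :
    rhoElem (k := k) b' (e + e') = rhoElem b' e + rhoElem b' e' := by
  apply Subtype.ext
  simp [rhoElem, mul_add, TensorProduct.add_tmul]
  abel

lemma rhoElem_zero (b' : B) : rhoElem (k := k) b' 0 = 0 := by
  apply Subtype.ext
  simp [rhoElem]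

lemma rhoElem_tmul (b' x y : B) :
    rhoElem (k := k) b' (x ⊗ₜ[k] y) = (x ⊗ₜ[k] (1 : B)) • dElem (b' * y) := by
  apply Subtype.ext
  simp [rhoElem, dElem, mul_sub, Algebra.TensorProduct.tmul_mul_tmul]
  ring_nf

lemma rhoElem_of_mem (b' : B) (j : KaehlerDifferential.ideal k B) :
    rhoElem (k := k) b' (j : B ⊗[k] B) = ((1 : B) ⊗ₜ[k] b') • j := by
  apply Subtype.ext
  have hj : Algebra.TensorProduct.lmul' k (j : B ⊗[k] B) = 0 := j.2
  simp [rhoElem, hj]


section withAlgebra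

variable [Algebra (B ⊗[k] B) (Q ⊗[k] B)]
  (hψ : ∀ e : B ⊗[k] B, algebraMap (B ⊗[k] B) (Q ⊗[k] B) e = psi φ e)

include hψ in
lemma smul_eq_psi_mul (e : B ⊗[k] B) (m : Q ⊗[k] B) : e • m = psi φ e * m := by
  rw [Algebra.smul_def, hψ]

/-- `Θ : (Q ⊗ B) ⊗_{B ⊗ B} J → Q ⊗ B`, `m ⊗ j ↦ j • m`. -/
noncomputable def theta :
    (Q ⊗[k] B) ⊗[B ⊗[k] B] (KaehlerDifferential.ideal k B) →ₗ[Q ⊗[k] B] (Q ⊗[k] B) :=
  (TensorProduct.AlgebraTensorModule.rid (B ⊗[k] B) (Q ⊗[k] B) (Q ⊗[k] B)).toLinearMap ∘ₗ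
    TensorProduct.AlgebraTensorModule.lTensor (Q ⊗[k] B) (Q ⊗[k] B)
      (Submodule.subtype (KaehlerDifferential.ideal k B))

lemma theta_tmul (m : Q ⊗[k] B) (j : KaehlerDifferential.ideal k B) :
    theta (k := k) (B := B) (Q := Q) (m ⊗ₜ[B ⊗[k] B] j) = (j : B ⊗[k] B) • m := by
  simp [theta]


/-- `Ξ : Q ⊗ B → (Q ⊗ B) ⊗_{B ⊗ B} J`, `q ⊗ b ↦ (q ⊗ 1) ⊗ d b`. -/
noncomputable def xi (hψ : ∀ e : B ⊗[k] B, algebraMap (B ⊗[k] B) (Q ⊗[k] B) e = psi φ e) :
    Q ⊗[k] B →+ (Q ⊗[k] B) ⊗[B ⊗[k] B] (KaehlerDifferential.ideal k B) :=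
  TensorProduct.liftAddHom
    { toFun := fun q =>
        { toFun := fun b => (q ⊗ₜ[k] (1 : B)) ⊗ₜ[B ⊗[k] B] dElem b
          map_zero' := by
            have : dElem (k := k) (0 : B) = 0 := by
              apply Subtype.ext; simp [dElem]
            rw [this, TensorProduct.tmul_zero]
          map_add' := fun b b' => by rw [dElem_add, TensorProduct.tmul_add] }
      map_zero' := by
        ext b
        simp
      map_add' := fun q q' => by
        ext b
        simp [TensorProduct.add_tmul] }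
    (by
      intro c q b
      simp only [AddMonoidHom.coe_mk, ZeroHom.coe_mk]
      rw [dElem_smul]
      have h1 : c • dElem (k := k) b = (algebraMap k (B ⊗[k] B) c) • dElem b := by
        rw [algebraMap_smul]
      rw [h1, ← TensorProduct.smul_tmul, smul_eq_psi_mul φ hψ]
      congr 1
      rw [AlgHom.commutes, Algebra.TensorProduct.algebraMap_apply, Algebra.TensorProduct.tmul_mul_tmul,
        one_mul, ← Algebra.smul_def])

lemma xi_tmul (q : Q) (b : B) :
    xi φ hψ (q ⊗ₜ[k] b) = (q ⊗ₜ[k] (1 : B)) ⊗ₜ[B ⊗[k] B] dElem b := by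
  simp [xi]


include hψ in
lemma xi_psi_mul (q : Q) (b' : B) (e : B ⊗[k] B) :
    xi φ hψ (psi φ e * (q ⊗ₜ[k] b')) = (q ⊗ₜ[k] (1 : B)) ⊗ₜ[B ⊗[k] B] rhoElem b' e := by
  induction e using TensorProduct.induction_on with
  | zero => simp [rhoElem_zero]
  | tmul x y =>
    rw [psi_tmul, Algebra.TensorProduct.tmul_mul_tmul, xi_tmul, rhoElem_tmul,
      ← TensorProduct.smul_tmul, smul_eq_psi_mul φ hψ, psi_tmul,
      Algebra.TensorProduct.tmul_mul_tmul, one_mul, mul_comm y b']
  | add x y hx hy =>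
    rw [map_add, add_mul, map_add, hx, hy, rhoElem_add, TensorProduct.tmul_add]

include hψ in
/-- `Ξ ∘ Θ = id`. -/
lemma xi_theta (x : (Q ⊗[k] B) ⊗[B ⊗[k] B] (KaehlerDifferential.ideal k B)) :
    xi φ hψ (theta x) = x := by
  induction x using TensorProduct.induction_on with
  | zero => simp
  | tmul m j =>
    rw [theta_tmul, smul_eq_psi_mul φ hψ]
    induction m using TensorProduct.induction_on with
    | zero => simp
    | tmul q b' =>
      rw [xi_psi_mul φ hψ, rhoElem_of_mem, ← TensorProduct.smul_tmul, smul_eq_psi_mul φ hψ,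
        psi_tmul, Algebra.TensorProduct.tmul_mul_tmul, map_one, one_mul, mul_one]
    | add m m' hm hm' =>
      rw [mul_add, map_add, hm, hm', TensorProduct.add_tmul]
  | add x y hx hy => rw [map_add, map_add, hx, hy]

include hψ in
lemma theta_injective : Function.Injective
    (theta (k := k) (B := B) (Q := Q)) :=
  Function.LeftInverse.injective (g := xi φ hψ) (xi_theta φ hψ)

include hψ in
lemma theta_mem_graphIdeal (x : (Q ⊗[k] B) ⊗[B ⊗[k] B] (KaehlerDifferential.ideal k B)) :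
    theta x ∈ graphIdeal φ := by
  induction x using TensorProduct.induction_on with
  | zero => simp
  | tmul m j =>
    rw [theta_tmul, smul_eq_psi_mul φ hψ, mem_graphIdeal, map_mul, graphHom_psi]
    have hj : Algebra.TensorProduct.lmul' k (j : B ⊗[k] B) = 0 := j.2
    rw [hj, map_zero, zero_mul]
  | add x y hx hy => rw [map_add]; exact (graphIdeal φ).add_mem hx hy

include hψ in
/-- `Θ ∘ Ξ = id - ι ∘ μ_φ`. -/
lemma theta_xi (m : Q ⊗[k] B) :
    theta (xi φ hψ m) = m - (graphHom φ m) ⊗ₜ[k] (1 : B) := by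
  induction m using TensorProduct.induction_on with
  | zero => simp
  | tmul q b =>
    rw [xi_tmul, theta_tmul, smul_eq_psi_mul φ hψ, dElem_coe, map_sub, psi_tmul, psi_tmul,
      map_one, sub_mul, Algebra.TensorProduct.tmul_mul_tmul, Algebra.TensorProduct.tmul_mul_tmul,
      graphHom_tmul, one_mul, mul_one, one_mul, mul_comm]
  | add m m' hm hm' =>
    rw [map_add, map_add, hm, hm', map_add, TensorProduct.add_tmul]
    abel

include hψ in
lemma theta_xi_of_mem {m : Q ⊗[k] B} (hm : m ∈ graphIdeal φ) : theta (xi φ hψ m) = m := by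
  rw [theta_xi φ hψ, (mem_graphIdeal φ).mp hm, TensorProduct.zero_tmul, sub_zero]

/-- `Θ` as an equivalence onto the graph ideal. -/
noncomputable def thetaEquiv
    (hψ : ∀ e : B ⊗[k] B, algebraMap (B ⊗[k] B) (Q ⊗[k] B) e = psi φ e) :
    (Q ⊗[k] B) ⊗[B ⊗[k] B] (KaehlerDifferential.ideal k B) ≃ₗ[Q ⊗[k] B] graphIdeal φ :=
  LinearEquiv.ofBijective
    (LinearMap.codRestrict (graphIdeal φ) theta (theta_mem_graphIdeal φ hψ))
    ⟨fun _ _ h => theta_injective φ hψ (congrArg Subtype.val h),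
     fun y => ⟨xi φ hψ y, Subtype.ext (theta_xi_of_mem φ hψ y.2)⟩⟩

end withAlgebra

/-- **Base change of the diagonal.** If the diagonal ideal of `B` is invertible, so is the
ideal of the graph of any `φ : B → Q`. -/
theorem graphIdeal_invertible
    [Module.Invertible (B ⊗[k] B) (KaehlerDifferential.ideal k B)] :
    Module.Invertible (Q ⊗[k] B) (graphIdeal φ) := by
  letI : Algebra (B ⊗[k] B) (Q ⊗[k] B) := (psi φ).toRingHom.toAlgebra
  have hψ : ∀ e : B ⊗[k] B, algebraMap (B ⊗[k] B) (Q ⊗[k] B) e = psi φ e := fun _ => rfl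
  exact Module.Invertible.congr (thetaEquiv φ hψ)

end Fermat.Agent.S25.H11
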