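import Mathlib

/-!
# S25 / HILB / H3, part 2 (helper11): modules over a finite projective algebra

* `projective_of_tower` : projectivity is transitive along `R → M` with `M` projective over `R`;
* `finrank_fiber_eq` : an invertible module over a finite `R`-algebra `M` has the same fibre
  dimensions over `R` as `M` itself (finite-dimensional algebras are semilocal);
* `rankAtStalk_eq_of_invertible` : hence the same ranks.
-/

set_option autoImplicit false
set_option linter.style.haveILetI false
set_option linter.unusedVariables false

open TensorProduct

namespace Fermat.Agent.S25.H11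

universe u v w

section trans

variable (R : Type u) (M : Type v) (K : Type w) [CommRing R] [CommRing M] [Algebra R M]
  [AddCommGroup K] [Module M K] [Module R K] [IsScalarTower R M K]

/-- Projectivity is transitive. -/
theorem projective_of_tower [Module.Projective R M] [Module.Projective M K] :
    Module.Projective R K := by
  classical
  obtain ⟨s, hs⟩ := (Module.projective_def' (R := M) (P := K)).mp inferInstance
  haveI : Module.Projective R (K →₀ M) :=
    Module.Projective.of_equiv (finsuppLequivDFinsupp (ι := K) (M := M) R).symm
  refine Module.Projective.of_split (s.restrictScalars R)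
    ((Finsupp.linearCombination M (id : K → K)).restrictScalars R) ?_
  apply LinearMap.ext
  intro x
  have := congrArg (fun f : K →ₗ[M] K => f x) hs
  simpa using this

/-- Finiteness is transitive (restatement of `Module.Finite.trans`). -/
theorem finite_of_tower [Module.Finite R M] [Module.Finite M K] : Module.Finite R K :=
  Module.Finite.trans M K

end trans


section fiber

variable (R : Type u) (M : Type u) (K : Type u) [CommRing R] [CommRing M] [Algebra R M]
  [AddCommGroup K] [Module M K] [Module R K] [IsScalarTower R M K]

attribute [local instance] Algebra.TensorProduct.rightAlgebra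

/-- An invertible module over a finite `R`-algebra `M` has the same fibre dimension over every
field `κ` over `R` as `M`. -/
theorem finrank_fiber_eq [Module.Finite R M] [Module.Invertible M K]
    (κ : Type u) [Field κ] [Algebra R κ] :
    Module.finrank κ (κ ⊗[R] K) = Module.finrank κ (κ ⊗[R] M) := by
  haveI : IsArtinianRing (κ ⊗[R] M) := IsArtinianRing.of_finite κ (κ ⊗[R] M)
  haveI : Module.Free (κ ⊗[R] M) ((κ ⊗[R] M) ⊗[M] K) := inferInstance
  obtain ⟨e⟩ := Module.Invertible.free_iff_linearEquiv.mp
    (inferInstance : Module.Free (κ ⊗[R] M) ((κ ⊗[R] M) ⊗[M] K))
  have e' : (κ ⊗[R] M) ⊗[M] K ≃ₗ[κ] κ ⊗[R] K :=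
    Algebra.IsPushout.cancelBaseChange R κ M (κ ⊗[R] M) K
  rw [← e'.finrank_eq]
  exact (e.restrictScalars κ).finrank_eq


/-- An invertible module over a finite projective `R`-algebra `M` has the same rank over `R`
as `M` at every prime. -/
theorem rankAtStalk_eq_of_invertible [Module.Finite R M] [Module.Projective R M]
    [Module.Invertible M K] :
    Module.rankAtStalk (R := R) K = Module.rankAtStalk (R := R) M := by
  haveI : Module.Projective R K := projective_of_tower R M K
  haveI : Module.Finite R K := finite_of_tower R M K
  ext p
  rw [Module.rankAtStalk_eq, Module.rankAtStalk_eq]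
  exact finrank_fiber_eq R M K p.asIdeal.ResidueField

end fiber

end Fermat.Agent.S25.H11
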