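import Mathlib

/-!
# S25 / HILB / H0a (helper11): Schanuel's lemma

If `0 → K → P → M → 0` and `0 → K' → P' → M → 0` are exact with `P`, `P'` projective then
`K × P' ≃ K' × P`.

The kernel form `schanuel_ker` is stated for maps which are semilinear over a ring homomorphism
`σ : R →+* S` (so that the common target `M` may be a module over another ring `S`, e.g. a
quotient ring of `R` regarded as a module over itself); `schanuel` is the usual linear form.
-/

set_option autoImplicit false
set_option linter.unusedVariables false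

namespace Fermat.Agent.S25.H11

universe u v

variable {R : Type u} [Ring R]

section split

variable {X P : Type*} [AddCommGroup X] [Module R X] [AddCommGroup P] [Module R P]

/-- A surjection onto a projective module splits: `X ≃ ker f × P`. -/
theorem nonempty_equiv_ker_prod [Module.Projective R P] (f : X →ₗ[R] P)
    (hf : Function.Surjective f) : Nonempty (X ≃ₗ[R] (LinearMap.ker f × P)) := by
  obtain ⟨s, hs⟩ := LinearMap.exists_rightInverse_of_surjective f (LinearMap.range_eq_top.mpr hf)
  have hs' : ∀ p, f (s p) = p := fun p => by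
    have := congrArg (fun g : P →ₗ[R] P => g p) hs
    simpa using this
  refine ⟨LinearEquiv.ofLinearMap
    (LinearMap.prod
      (LinearMap.codRestrict (LinearMap.ker f) (LinearMap.id - s.comp f) (fun x => by
        simp [LinearMap.mem_ker, hs']))
      f)
    (LinearMap.coprod (LinearMap.ker f).subtype s) ?_ ?_⟩
  · apply LinearMap.ext
    rintro ⟨⟨y, hy⟩, p⟩
    have hy' : f y = 0 := hy
    apply Prod.ext
    · apply Subtype.ext
      simp [hy', hs']
    · simp [hy', hs']
  · apply LinearMap.ext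
    intro x
    simp

end split

section semilinear

variable {S : Type*} [Ring S] {σ : R →+* S} {P P' M : Type*}
  [AddCommGroup P] [Module R P] [AddCommGroup P'] [Module R P']
  [AddCommGroup M] [Module S M]

/-- The pullback `P ×_M P'`. -/
def pullbackSub (π : P →ₛₗ[σ] M) (π' : P' →ₛₗ[σ] M) : Submodule R (P × P') where
  carrier := {x | π x.1 = π' x.2}
  add_mem' := fun {x y} hx hy => by
    simp only [Set.mem_ofPred_eq] at hx hy ⊢
    simp [hx, hy]
  zero_mem' := by simp
  smul_mem' := fun c x hx => by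
    simp only [Set.mem_ofPred_eq] at hx ⊢
    simp [hx]

lemma mem_pullbackSub {π : P →ₛₗ[σ] M} {π' : P' →ₛₗ[σ] M} {x : P × P'} :
    x ∈ pullbackSub π π' ↔ π x.1 = π' x.2 := Iff.rfl

/-- First projection of the pullback. -/
def pullbackFst (π : P →ₛₗ[σ] M) (π' : P' →ₛₗ[σ] M) : pullbackSub π π' →ₗ[R] P :=
  (LinearMap.fst R P P').comp (pullbackSub π π').subtype

lemma pullbackFst_surjective (π : P →ₛₗ[σ] M) {π' : P' →ₛₗ[σ] M}
    (hπ' : Function.Surjective π') : Function.Surjective (pullbackFst π π') := by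
  intro p
  obtain ⟨p', hp'⟩ := hπ' (π p)
  exact ⟨⟨(p, p'), mem_pullbackSub.mpr hp'.symm⟩, rfl⟩

/-- The kernel of the first projection of the pullback is the kernel of `π'`. -/
def kerPullbackFstEquiv (π : P →ₛₗ[σ] M) (π' : P' →ₛₗ[σ] M) :
    LinearMap.ker (pullbackFst π π') ≃ₗ[R] LinearMap.ker π' where
  toFun x := ⟨(x : pullbackSub π π').1.2, by
    have h1 : (x : pullbackSub π π').1.1 = 0 := x.2
    have h2 := mem_pullbackSub.mp (x : pullbackSub π π').2
    rw [h1, map_zero] at h2
    exact h2.symm⟩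
  map_add' x y := rfl
  map_smul' c x := rfl
  invFun y := ⟨⟨(0, (y : P')), mem_pullbackSub.mpr (by
    have : π' (y : P') = 0 := y.2
    simp [this])⟩, rfl⟩
  left_inv x := by
    apply Subtype.ext
    apply Subtype.ext
    have h1 : (x : pullbackSub π π').1.1 = 0 := x.2
    exact Prod.ext h1.symm rfl
  right_inv y := rfl

/-- Symmetry of the pullback. -/
def pullbackSwap (π : P →ₛₗ[σ] M) (π' : P' →ₛₗ[σ] M) :
    pullbackSub π π' ≃ₗ[R] pullbackSub π' π where
  toFun x := ⟨(x.1.2, x.1.1), mem_pullbackSub.mpr (mem_pullbackSub.mp x.2).symm⟩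
  map_add' x y := rfl
  map_smul' c x := rfl
  invFun x := ⟨(x.1.2, x.1.1), mem_pullbackSub.mpr (mem_pullbackSub.mp x.2).symm⟩
  left_inv x := rfl
  right_inv x := rfl

/-- One half of Schanuel: the pullback is `ker π' × P`. -/
theorem nonempty_pullback_equiv [Module.Projective R P] (π : P →ₛₗ[σ] M) {π' : P' →ₛₗ[σ] M}
    (hπ' : Function.Surjective π') :
    Nonempty (pullbackSub π π' ≃ₗ[R] (LinearMap.ker π' × P)) := by
  obtain ⟨e⟩ := nonempty_equiv_ker_prod (pullbackFst π π') (pullbackFst_surjective π hπ')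
  exact ⟨e ≪≫ₗ LinearEquiv.prodCongr (kerPullbackFstEquiv π π') (LinearEquiv.refl R P)⟩

/-- **Schanuel's lemma**, kernel form, for semilinear maps. -/
theorem schanuel_ker [Module.Projective R P] [Module.Projective R P'] {π : P →ₛₗ[σ] M}
    {π' : P' →ₛₗ[σ] M} (hπ : Function.Surjective π) (hπ' : Function.Surjective π') :
    Nonempty ((LinearMap.ker π × P') ≃ₗ[R] (LinearMap.ker π' × P)) := by
  obtain ⟨e⟩ := nonempty_pullback_equiv π hπ'
  obtain ⟨e'⟩ := nonempty_pullback_equiv π' hπ
  exact ⟨e'.symm ≪≫ₗ (pullbackSwap π π').symm ≪≫ₗ e⟩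

end semilinear

variable {K K' P P' M : Type*}
  [AddCommGroup K] [Module R K] [AddCommGroup K'] [Module R K']
  [AddCommGroup P] [Module R P] [AddCommGroup P'] [Module R P']
  [AddCommGroup M] [Module R M]

/-- **Schanuel's lemma.** -/
theorem schanuel [Module.Projective R P] [Module.Projective R P']
    (i : K →ₗ[R] P) (π : P →ₗ[R] M) (i' : K' →ₗ[R] P') (π' : P' →ₗ[R] M)
    (hi : Function.Injective i) (hπ : Function.Surjective π)
    (hex : LinearMap.range i = LinearMap.ker π)
    (hi' : Function.Injective i') (hπ' : Function.Surjective π')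
    (hex' : LinearMap.range i' = LinearMap.ker π') :
    Nonempty ((K × P') ≃ₗ[R] (K' × P)) := by
  obtain ⟨e⟩ := schanuel_ker hπ hπ'
  let a : K ≃ₗ[R] LinearMap.ker π :=
    (LinearEquiv.ofInjective i hi) ≪≫ₗ LinearEquiv.ofEq _ _ hex
  let a' : K' ≃ₗ[R] LinearMap.ker π' :=
    (LinearEquiv.ofInjective i' hi') ≪≫ₗ LinearEquiv.ofEq _ _ hex'
  exact ⟨LinearEquiv.prodCongr a (LinearEquiv.refl R P') ≪≫ₗ e ≪≫ₗ
    LinearEquiv.prodCongr a'.symm (LinearEquiv.refl R P)⟩

end Fermat.Agent.S25.H11
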