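import Mathlib
import Fermat.Agent.S25.H11.GraphIdeal
import Fermat.Agent.S25.H11.Schanuel
import Fermat.Agent.S25.H11.ProjAlg
import Fermat.Agent.S25.H551.Invertible

/-!
# S25 / HILB / H3 (helper11): Hilb = Div

If the diagonal ideal of `B` over `k` is an invertible `B ⊗ B`-module (H2), then every ideal `I`
of `A ⊗[k] B` with `(A ⊗[k] B) ⧸ I` finite projective over `A` is an invertible module
(`hilb_ideal_invertible`).  No field / domain / finiteness hypothesis is needed.

Proof: `M := Q ⊗ B` (`Q` the quotient) is a finite projective `A ⊗ B`-algebra, the graph ideal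
`K = ker (Q ⊗ B → Q)` is an invertible `M`-module (`graphIdeal_invertible`, base change of the
diagonal), Schanuel gives `I × M ≃ K × (A ⊗ B)`, and `K` has the same rank as `M` because finite
algebras over a field are semilocal; finally rank one + projective ⇒ invertible (helper551).
-/

set_option autoImplicit false
set_option linter.style.haveILetI false
set_option linter.unusedVariables false
set_option linter.unusedSectionVars false

open TensorProduct

namespace Fermat.Agent.S25.H11

universe u

section abstractQ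

variable (k : Type u) [CommRing k] (B : Type u) [CommRing B] [Algebra k B]
  (A : Type u) [CommRing A] [Algebra k A]
  (Q : Type u) [CommRing Q] [Algebra k Q] [Algebra A Q] [IsScalarTower k A Q]
  (σ : A ⊗[k] B →ₐ[A] Q)

/-- `φ : B → Q`. -/
noncomputable def quotPhi : B →ₐ[k] Q :=
  (σ.restrictScalars k).comp Algebra.TensorProduct.includeRight

lemma quotPhi_apply (b : B) : quotPhi k B A Q σ b = σ ((1 : A) ⊗ₜ[k] b) := rfl

/-- `χ : A ⊗ B → Q ⊗ B`. -/
noncomputable def quotChi : A ⊗[k] B →ₐ[k] Q ⊗[k] B :=
  Algebra.TensorProduct.map (IsScalarTower.toAlgHom k A Q) (AlgHom.id k B)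

lemma quotChi_tmul (a : A) (b : B) :
    quotChi k B A Q (a ⊗ₜ[k] b) = (algebraMap A Q a) ⊗ₜ[k] b := by
  simp [quotChi]

lemma graphHom_quotChi (r : A ⊗[k] B) :
    graphHom (quotPhi k B A Q σ) (quotChi k B A Q r) = σ r := by
  induction r using TensorProduct.induction_on with
  | zero => simp
  | tmul a b =>
    rw [quotChi_tmul, graphHom_tmul, quotPhi_apply, ← AlgHom.commutes σ a,
      Algebra.TensorProduct.algebraMap_apply, ← map_mul,
      Algebra.TensorProduct.tmul_mul_tmul]
    simp
  | add x y hx hy => simp only [map_add, hx, hy]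

/-- The `A ⊗ B`-algebra structure on `Q ⊗ B` given by `χ`. -/
noncomputable abbrev chiAlgebra : Algebra (A ⊗[k] B) (Q ⊗[k] B) :=
  (quotChi k B A Q).toRingHom.toAlgebra


/-- **H3, abstract form.** -/
theorem ker_invertible_of_finite_projective
    [Module.Invertible (B ⊗[k] B) (KaehlerDifferential.ideal k B)]
    [Module.Finite A Q] [Module.Projective A Q]
    (hsurj : Function.Surjective σ) :
    Module.Invertible (A ⊗[k] B) (RingHom.ker σ.toRingHom) := by
  -- the `R`-algebra structure on `M = Q ⊗ B`
  letI alg : Algebra (A ⊗[k] B) (Q ⊗[k] B) := chiAlgebra k B A Q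
  have halg : ∀ r, algebraMap (A ⊗[k] B) (Q ⊗[k] B) r = quotChi k B A Q r := fun _ => rfl
  haveI tower : IsScalarTower A (A ⊗[k] B) (Q ⊗[k] B) := by
    apply IsScalarTower.of_algebraMap_eq
    intro a
    rw [halg, Algebra.TensorProduct.algebraMap_apply, Algebra.TensorProduct.algebraMap_apply,
      quotChi_tmul]
    simp
  -- `M` is the base change of `Q` along `A → R`
  have hpush : Algebra.IsPushout A Q (A ⊗[k] B) (Q ⊗[k] B) := by
    apply Algebra.IsPushout.tensorProduct_tensorProduct k B A Q
    ext b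
    simp [halg, quotChi]
  have hbc := hpush.symm.out
  let eM : (A ⊗[k] B) ⊗[A] Q ≃ₗ[A ⊗[k] B] (Q ⊗[k] B) := hbc.equiv
  haveI : Module.Finite (A ⊗[k] B) (Q ⊗[k] B) := Module.Finite.equiv eM
  haveI : Module.Projective (A ⊗[k] B) (Q ⊗[k] B) := Module.Projective.of_equiv eM
  -- the graph ideal
  haveI hK : Module.Invertible (Q ⊗[k] B) (graphIdeal (quotPhi k B A Q σ)) :=
    graphIdeal_invertible (quotPhi k B A Q σ)
  haveI : Module.Projective (A ⊗[k] B) (graphIdeal (quotPhi k B A Q σ)) :=
    projective_of_tower (A ⊗[k] B) (Q ⊗[k] B) (graphIdeal (quotPhi k B A Q σ))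
  haveI : Module.Finite (A ⊗[k] B) (graphIdeal (quotPhi k B A Q σ)) :=
    finite_of_tower (A ⊗[k] B) (Q ⊗[k] B) (graphIdeal (quotPhi k B A Q σ))
  -- the two semilinear surjections onto `Q`
  let π : (A ⊗[k] B) →ₛₗ[σ.toRingHom] Q := σ.toRingHom.toSemilinearMap
  let π' : (Q ⊗[k] B) →ₛₗ[σ.toRingHom] Q :=
    { toFun := graphHom (quotPhi k B A Q σ)
      map_add' := map_add _
      map_smul' := fun r m => by
        rw [Algebra.smul_def, halg, map_mul, graphHom_quotChi]
        rfl }
  have hπ : Function.Surjective π := hsurj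
  have hπ' : Function.Surjective π' := fun q => ⟨q ⊗ₜ[k] (1 : B), by
    show graphHom (quotPhi k B A Q σ) (q ⊗ₜ[k] (1 : B)) = q
    simp⟩
  obtain ⟨eS⟩ := schanuel_ker hπ hπ'
  -- the kernel of `π'` is the graph ideal
  let eK : LinearMap.ker π' ≃ₗ[A ⊗[k] B] graphIdeal (quotPhi k B A Q σ) :=
    { toFun := fun x => ⟨x.1, x.2⟩
      map_add' := fun _ _ => rfl
      map_smul' := fun _ _ => rfl
      invFun := fun x => ⟨x.1, x.2⟩
      left_inv := fun _ => rfl
      right_inv := fun _ => rfl }
  haveI : Module.Projective (A ⊗[k] B) (LinearMap.ker π') := Module.Projective.of_equiv eK.symm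
  haveI : Module.Finite (A ⊗[k] B) (LinearMap.ker π') := Module.Finite.equiv eK.symm
  -- hence `ker π` is finite projective
  haveI : Module.Projective (A ⊗[k] B) (LinearMap.ker π × (Q ⊗[k] B)) :=
    Module.Projective.of_equiv eS.symm
  haveI : Module.Finite (A ⊗[k] B) (LinearMap.ker π × (Q ⊗[k] B)) := Module.Finite.equiv eS.symm
  haveI : Module.Projective (A ⊗[k] B) (LinearMap.ker π) :=
    Module.Projective.of_split (LinearMap.inl _ _ (Q ⊗[k] B)) (LinearMap.fst _ _ (Q ⊗[k] B))
      (by ext x; rfl)
  haveI : Module.Finite (A ⊗[k] B) (LinearMap.ker π) :=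
    Module.Finite.of_surjective (LinearMap.fst _ (LinearMap.ker π) (Q ⊗[k] B))
      LinearMap.fst_surjective
  -- ranks
  have hrank : ∀ p : PrimeSpectrum (A ⊗[k] B),
      Module.rankAtStalk (R := A ⊗[k] B) (LinearMap.ker π) p = 1 := by
    intro p
    haveI : Nontrivial (A ⊗[k] B) := p.nontrivial
    have h1 := Module.rankAtStalk_eq_of_equiv eS
    rw [Module.rankAtStalk_prod, Module.rankAtStalk_prod, Module.rankAtStalk_self,
      Module.rankAtStalk_eq_of_equiv eK,
      rankAtStalk_eq_of_invertible (A ⊗[k] B) (Q ⊗[k] B) (graphIdeal (quotPhi k B A Q σ))] at h1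
    have h2 := congrFun h1 p
    simp only [Pi.add_apply, Pi.one_apply] at h2
    omega
  have hinv := Fermat.Agent.S25.H551.invertible_of_rankAtStalk_eq_one (LinearMap.ker π) hrank
  exact hinv

end abstractQ

/-- **H3 (Hilb = Div).** If the diagonal ideal of `B` is an invertible `B ⊗ B`-module, then every
ideal `I` of `A ⊗ B` such that `(A ⊗ B) ⧸ I` is finite projective over `A` is an invertible
`A ⊗ B`-module. -/
theorem hilb_ideal_invertible (k : Type u) [CommRing k] (B : Type u) [CommRing B] [Algebra k B]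
    [Module.Invertible (B ⊗[k] B) (KaehlerDifferential.ideal k B)]
    (A : Type u) [CommRing A] [Algebra k A] (I : Ideal (A ⊗[k] B))
    [Module.Finite A ((A ⊗[k] B) ⧸ I)] [Module.Projective A ((A ⊗[k] B) ⧸ I)] :
    Module.Invertible (A ⊗[k] B) I := by
  have h := ker_invertible_of_finite_projective k B A ((A ⊗[k] B) ⧸ I) (Ideal.Quotient.mkₐ A I)
    (Ideal.Quotient.mkₐ_surjective A I)
  have hker : RingHom.ker (Ideal.Quotient.mkₐ A I).toRingHom = I := by
    ext x
    simp
  rw [hker] at h
  exact h

/-- A generator of an invertible principal ideal is a nonzerodivisor. -/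
theorem mem_nonZeroDivisors_of_span_invertible {R : Type u} [CommRing R] (f : R)
    [Module.Invertible R (Ideal.span {f} : Ideal R)] : f ∈ nonZeroDivisors R := by
  rw [mem_nonZeroDivisors_iff_right]
  intro r hr
  have hfaith : FaithfulSMul R (Ideal.span {f} : Ideal R) := inferInstance
  have h0 : ∀ x : (Ideal.span {f} : Ideal R), r • x = (0 : R) • x := by
    rintro ⟨x, hx⟩
    obtain ⟨c, rfl⟩ := Ideal.mem_span_singleton'.mp hx
    apply Subtype.ext
    simp only [zero_smul, Submodule.coe_smul, smul_eq_mul, ZeroMemClass.coe_zero]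
    rw [mul_comm c f, ← mul_assoc, hr, zero_mul]
  exact hfaith.eq_of_smul_eq_smul h0

/-- **H3'.** In the situation of `hilb_ideal_invertible`, a generator of a principal such ideal
is a nonzerodivisor. -/
theorem hilb_ideal_generator_regular (k : Type u) [CommRing k] (B : Type u) [CommRing B]
    [Algebra k B] [Module.Invertible (B ⊗[k] B) (KaehlerDifferential.ideal k B)]
    (A : Type u) [CommRing A] [Algebra k A] (f : A ⊗[k] B)
    [Module.Finite A ((A ⊗[k] B) ⧸ Ideal.span {f})]
    [Module.Projective A ((A ⊗[k] B) ⧸ Ideal.span {f})] :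
    f ∈ nonZeroDivisors (A ⊗[k] B) := by
  haveI := hilb_ideal_invertible k B A (Ideal.span {f})
  exact mem_nonZeroDivisors_of_span_invertible f

end Fermat.Agent.S25.H11
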